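import Mathlib
import Fermat.Prelude.Def_ModularCurve_GenusNumerics

/-!
# Arithmetic of the Dedekind psi function
-/

set_option autoImplicit false

namespace Fermat.Agent.Lib.Gamma0Cosets

open Finset

theorem sum_divisors_mul_of_coprime {α : Type*} [AddCommMonoid α] {m n : ℕ} (h : m.Coprime n)
    (F : ℕ → α) :
    ∑ d ∈ (m * n).divisors, F d = ∑ a ∈ m.divisors, ∑ b ∈ n.divisors, F (a * b) := by
  rw [Nat.divisors_mul, Finset.mul_def, Finset.sum_image, Finset.sum_product]
  intro x hx y hy hxy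
  exact h.mul_injOn_divisors hx hy hxy

theorem dedekindPsi_mul {m n : ℕ} (h : m.Coprime n) :
    ModularCurve.dedekindPsi (m * n) = ModularCurve.dedekindPsi m * ModularCurve.dedekindPsi n := by
  unfold ModularCurve.dedekindPsi
  rw [Finset.sum_filter, Finset.sum_filter, Finset.sum_filter, sum_divisors_mul_of_coprime h,
    Finset.sum_mul_sum]
  refine Finset.sum_congr rfl fun a ha => Finset.sum_congr rfl fun b hb => ?_
  have ha' := Nat.dvd_of_mem_divisors ha
  have hb' := Nat.dvd_of_mem_divisors hb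
  have hab : a.Coprime b := Nat.Coprime.coprime_dvd_left ha' (Nat.Coprime.coprime_dvd_right hb' h)
  have hsq : Squarefree (a * b) ↔ Squarefree a ∧ Squarefree b := by
    rw [Nat.squarefree_mul_iff]
    exact ⟨fun h => h.2, fun h => ⟨hab, h⟩⟩
  by_cases h1 : Squarefree a <;> by_cases h2 : Squarefree b <;>
    simp [hsq, h1, h2, Nat.mul_div_mul_comm ha' hb']

theorem dedekindPsi_prime_pow {p : ℕ} (hp : p.Prime) (k : ℕ) :
    ModularCurve.dedekindPsi (p ^ (k + 1)) = (p + 1) * p ^ k := by
  unfold ModularCurve.dedekindPsi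
  rw [Finset.sum_filter, Nat.sum_divisors_prime_pow hp, Finset.sum_range_succ', Finset.sum_range_succ']
  have h0 : ∑ i ∈ range k, (if Squarefree (p ^ (i + 1 + 1)) then p ^ (k + 1) / p ^ (i + 1 + 1) else 0) = 0 := by
    refine Finset.sum_eq_zero fun i _ => ?_
    rw [if_neg]
    intro hsq
    have := (Nat.squarefree_pow_iff hp.ne_one (by omega : i + 1 + 1 ≠ 0)).mp hsq
    omega
  rw [h0]
  have h1 : Squarefree (p ^ (0 + 1)) := by simpa using hp.squarefree
  have h2 : Squarefree (p ^ 0) := by simp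
  rw [if_pos h1, if_pos h2]
  have : p ^ (k + 1) / p ^ (0 + 1) = p ^ k := by
    rw [zero_add, pow_one, pow_succ, Nat.mul_div_cancel _ hp.pos]
  rw [this]
  simp
  ring

end Fermat.Agent.Lib.Gamma0Cosets
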