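import Fermat.Agent.Lib.Gamma0Cosets.Basic
import Fermat.Agent.Lib.Gamma0Cosets.Psi

/-!
# The index of `Γ₀(N)` is the Dedekind psi function
-/

set_option autoImplicit false

namespace Fermat.Agent.Lib.Gamma0Cosets

open Matrix MatrixGroups ModularGroup CongruenceSubgroup

/-- unimodular vectors over a commutative ring -/
def Uni (R : Type*) [CommRing R] : Type _ := {v : R × R // IsCoprime v.1 v.2}

section Ring

variable {R S : Type*} [CommRing R] [CommRing S]

theorem isCoprime_of_isUnit_left {x : R} (h : IsUnit x) (y : R) : IsCoprime x y := by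
  obtain ⟨u, rfl⟩ := h
  exact ⟨↑u⁻¹, 0, by simp⟩

theorem isCoprime_of_isUnit_right {y : R} (h : IsUnit y) (x : R) : IsCoprime x y := by
  obtain ⟨u, rfl⟩ := h
  exact ⟨0, ↑u⁻¹, by simp⟩

def Uni.congr (e : R ≃+* S) : Uni R ≃ Uni S where
  toFun v := ⟨(e v.1.1, e v.1.2), IsCoprime.map v.2 (e : R →+* S)⟩
  invFun v := ⟨(e.symm v.1.1, e.symm v.1.2), IsCoprime.map v.2 (e.symm : S →+* R)⟩
  left_inv v := by apply Subtype.ext; simp
  right_inv v := by apply Subtype.ext; simp

def Uni.prod : Uni (R × S) ≃ Uni R × Uni S where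
  toFun v := (⟨(v.1.1.1, v.1.2.1), v.2.map (RingHom.fst R S)⟩,
    ⟨(v.1.1.2, v.1.2.2), v.2.map (RingHom.snd R S)⟩)
  invFun w := ⟨((w.1.1.1, w.2.1.1), (w.1.1.2, w.2.1.2)), by
    obtain ⟨a, b, hab⟩ := w.1.2
    obtain ⟨c, d, hcd⟩ := w.2.2
    exact ⟨(a, c), (b, d), Prod.ext hab hcd⟩⟩
  left_inv v := rfl
  right_inv w := rfl

end Ring

theorem card_uni_mul {m n : ℕ} (h : m.Coprime n) :
    Nat.card (Uni (ZMod (m * n))) = Nat.card (Uni (ZMod m)) * Nat.card (Uni (ZMod n)) := by
  rw [← Nat.card_prod]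
  exact Nat.card_congr ((Uni.congr (ZMod.chineseRemainder h)).trans Uni.prod)

theorem isCoprime_zmod_prime_pow_iff {p : ℕ} (hp : p.Prime) (k : ℕ) (x y : ZMod (p ^ (k + 1))) :
    IsCoprime x y ↔ IsUnit x ∨ IsUnit y := by
  have : Fact p.Prime := ⟨hp⟩
  have : NeZero (p ^ (k + 1)) := ⟨pow_ne_zero _ hp.ne_zero⟩
  constructor
  · rintro ⟨a, b, hab⟩
    by_contra hcon
    push Not at hcon
    have key : ∀ z : ZMod (p ^ (k + 1)), ¬ IsUnit z →
        ZMod.castHom (dvd_pow_self p (Nat.succ_ne_zero k)) (ZMod p) z = 0 := by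
      intro z hz
      rw [← ZMod.natCast_zmod_val z, ZMod.isUnit_iff_coprime, Nat.coprime_pow_right_iff (Nat.succ_pos k),
        Nat.coprime_comm, hp.coprime_iff_not_dvd, not_not] at hz
      conv_lhs => rw [← ZMod.natCast_zmod_val z]
      rw [map_natCast, ZMod.natCast_eq_zero_iff]
      exact hz
    have h2 := congrArg (ZMod.castHom (dvd_pow_self p (Nat.succ_ne_zero k)) (ZMod p)) hab
    rw [map_add, map_mul, map_mul, key x hcon.1, key y hcon.2, map_one] at h2
    simp at h2
  · rintro (h | h)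
    · exact isCoprime_of_isUnit_left h _
    · exact isCoprime_of_isUnit_right h _

theorem card_uni_prime_pow {p : ℕ} (hp : p.Prime) (k : ℕ) :
    Nat.card (Uni (ZMod (p ^ (k + 1)))) =
      (p ^ (k + 1)).totient * ModularCurve.dedekindPsi (p ^ (k + 1)) := by
  classical
  have : NeZero (p ^ (k + 1)) := ⟨pow_ne_zero _ hp.ne_zero⟩
  set R := ZMod (p ^ (k + 1)) with hR
  -- decompose
  have e : Uni R ≃ (Rˣ × R) ⊕ ({x : R // ¬ IsUnit x} × Rˣ) :=
    { toFun := fun v =>
        if h : IsUnit v.1.1 then Sum.inl (h.unit, v.1.2)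
        else Sum.inr (⟨v.1.1, h⟩,
          (((isCoprime_zmod_prime_pow_iff hp k _ _).mp v.2).resolve_left h).unit)
      invFun := fun w => match w with
        | Sum.inl w => ⟨(w.1, w.2), isCoprime_of_isUnit_left w.1.isUnit _⟩
        | Sum.inr w => ⟨(w.1.1, w.2), isCoprime_of_isUnit_right w.2.isUnit _⟩
      left_inv := by
        intro v
        by_cases h : IsUnit v.1.1
        · simp only [h, dite_true]; rfl
        · simp only [h, dite_false]; rfl
      right_inv := by
        rintro (w | w)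
        · simp
        · have : ¬ IsUnit w.1.1 := w.1.2
          simp [this] }
  rw [Nat.card_congr e, Nat.card_sum, Nat.card_prod, Nat.card_prod]
  have hu : Nat.card Rˣ = (p ^ (k + 1)).totient := by
    rw [Nat.card_eq_fintype_card, ZMod.card_units_eq_totient]
  have hn : Nat.card R = p ^ (k + 1) := Nat.card_zmod _
  have hnu : Nat.card {x : R // ¬ IsUnit x} + Nat.card Rˣ = Nat.card R := by
    have e2 : R ≃ {x : R // IsUnit x} ⊕ {x : R // ¬ IsUnit x} := (Equiv.sumCompl _).symm
    have e3 : {x : R // IsUnit x} ≃ Rˣ := (Equiv.ofBijective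
      (fun u : Rˣ => (⟨u, u.isUnit⟩ : {x : R // IsUnit x}))
      ⟨fun u v h => Units.ext (congrArg Subtype.val h),
        fun x => ⟨x.2.unit, Subtype.ext x.2.unit_spec⟩⟩).symm
    rw [Nat.card_congr e2, Nat.card_sum, Nat.card_congr e3, add_comm]
  rw [hu, hn] at hnu
  rw [hu, hn, dedekindPsi_prime_pow hp]
  rw [Nat.totient_prime_pow_succ hp] at hnu ⊢
  obtain ⟨r, rfl⟩ : ∃ r, p = r + 1 := ⟨p - 1, (Nat.succ_pred_eq_of_pos hp.pos).symm⟩
  simp only [Nat.add_sub_cancel] at hnu ⊢
  have h3 : Nat.card {x : R // ¬ IsUnit x} = (r + 1) ^ k := by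
    have : (r + 1) ^ (k + 1) = (r + 1) ^ k + (r + 1) ^ k * r := by ring
    omega
  rw [h3]
  ring

theorem card_uni (N : ℕ) (hN : N ≠ 0) :
    Nat.card (Uni (ZMod N)) = N.totient * ModularCurve.dedekindPsi N := by
  induction N using Nat.recOnPosPrimePosCoprime with
  | prime_pow p n hp hn =>
    obtain ⟨k, rfl⟩ : ∃ k, n = k + 1 := ⟨n - 1, by omega⟩
    exact card_uni_prime_pow hp k
  | zero => exact absurd rfl hN
  | one =>
    rw [Nat.totient_one, ModularCurve.dedekindPsi_one]
    have : Subsingleton (Uni (ZMod 1)) := by unfold Uni; infer_instance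
    have : Nonempty (Uni (ZMod 1)) := ⟨⟨(1, 1), isCoprime_one_left⟩⟩
    simp
  | coprime a b ha hb hab iha ihb =>
    rw [card_uni_mul hab, iha (by omega), ihb (by omega), Nat.totient_mul hab, dedekindPsi_mul hab]
    ring

variable {N : ℕ}

theorem card_quotient_mul_totient [NeZero N] :
    Nat.card (Q N) * N.totient = Nat.card (Uni (ZMod N)) := by
  have hu : Nat.card (ZMod N)ˣ = N.totient := by
    rw [Nat.card_eq_fintype_card, ZMod.card_units_eq_totient]
  rw [← hu, ← Nat.card_prod]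
  refine Nat.card_congr (Equiv.ofBijective
    (fun w : Q N × (ZMod N)ˣ =>
      (⟨(w.2 * cx N w.1.out, w.2 * cy N w.1.out),
        (isCoprime_mul_unit_left w.2.isUnit _ _).mpr (isCoprime_col _)⟩ : Uni (ZMod N))) ⟨?_, ?_⟩)
  · rintro ⟨q, u⟩ ⟨q', u'⟩ h
    have h1 : (u : ZMod N) * cx N q.out = u' * cx N q'.out := congrArg (fun v => v.1.1) h
    have h2 : (u : ZMod N) * cy N q.out = u' * cy N q'.out := congrArg (fun v => v.1.2) h
    have hq : q = q' := by
      rw [← QuotientGroup.out_eq' q, ← QuotientGroup.out_eq' q', mk_eq_mk_iff]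
      have : (u : ZMod N) * (cx N q.out * cy N q'.out - cy N q.out * cx N q'.out) = 0 := by
        linear_combination (cy N q'.out) * h1 - (cx N q'.out) * h2
      exact sub_eq_zero.mp (u.isUnit.mul_right_eq_zero.mp this)
    subst hq
    obtain ⟨a, b, hab⟩ := isCoprime_col (N := N) q.out
    have : (u : ZMod N) = u' := by
      linear_combination a * h1 + b * h2 - (u - u' : ZMod N) * hab
    rw [Units.ext this]
  · rintro ⟨⟨x, y⟩, hxy⟩
    obtain ⟨g, hg⟩ := exists_col (N := N) hxy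
    have h1 : (QuotientGroup.mk (QuotientGroup.mk g : Q N).out : Q N) = QuotientGroup.mk g :=
      QuotientGroup.out_eq' _
    rw [mk_eq_mk_iff] at h1
    set g' := (QuotientGroup.mk g : Q N).out with hg'
    obtain ⟨u1, hu1x, hu1y⟩ := exists_unit_of_cross hxy (isCoprime_col g) hg
    obtain ⟨u2, hu2x, hu2y⟩ := exists_unit_of_cross (isCoprime_col g') (isCoprime_col g) h1
    refine ⟨(QuotientGroup.mk g, u1⁻¹ * u2), ?_⟩
    apply Subtype.ext
    have e := u1.inv_mul
    apply Prod.ext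
    · show ((u1⁻¹ * u2 : (ZMod N)ˣ) : ZMod N) * cx N g' = x
      rw [Units.val_mul, mul_assoc, ← hu2x, hu1x]
      linear_combination x * e
    · show ((u1⁻¹ * u2 : (ZMod N)ˣ) : ZMod N) * cy N g' = y
      rw [Units.val_mul, mul_assoc, ← hu2y, hu1y]
      linear_combination y * e

theorem card_quotient [NeZero N] : Nat.card (Q N) = ModularCurve.dedekindPsi N := by
  have h1 := card_quotient_mul_totient (N := N)
  rw [card_uni N (NeZero.ne N), mul_comm] at h1
  exact Nat.eq_of_mul_eq_mul_left (Nat.totient_pos.mpr (Nat.pos_of_ne_zero (NeZero.ne N))) h1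

theorem index_Gamma0 [NeZero N] : (Gamma0 N).index = ModularCurve.dedekindPsi N :=
  card_quotient

end Fermat.Agent.Lib.Gamma0Cosets
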