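import Fermat.Agent.Lib.Gamma0Cosets.Basic
import Fermat.Prelude.Def_ModularCurve_GenusNumerics

/-!
# Orbits of `T` on `SL(2,ℤ) ⧸ Γ₀(N)` (cusps of `Γ₀(N)`)
-/

set_option autoImplicit false

namespace Fermat.Agent.Lib.Gamma0Cosets

open Matrix MatrixGroups ModularGroup CongruenceSubgroup

variable {N : ℕ}

/-- the set of `T`-orbits -/
abbrev Cusp (N : ℕ) : Type := MulAction.orbitRel.Quotient (Subgroup.zpowers T) (Q N)

def toCusp (N : ℕ) (g : SL(2, ℤ)) : Cusp N := Quotient.mk'' (QuotientGroup.mk g : Q N)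

theorem toCusp_surjective : Function.Surjective (toCusp N) := by
  intro c
  induction c using Quotient.inductionOn' with
  | h q =>
    induction q using QuotientGroup.induction_on with
    | H g => exact ⟨g, rfl⟩

theorem toCusp_eq_iff (g h : SL(2, ℤ)) :
    toCusp N g = toCusp N h ↔ ∃ t : ZMod N, (cx N h + t * cy N h) * cy N g = cy N h * cx N g := by
  unfold toCusp
  rw [Quotient.eq'', MulAction.orbitRel_apply, MulAction.mem_orbit_iff]
  constructor
  · rintro ⟨⟨a, ha⟩, hk⟩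
    obtain ⟨k, rfl⟩ := Subgroup.mem_zpowers_iff.mp ha
    have h1 : (QuotientGroup.mk (T ^ k * h) : Q N) = QuotientGroup.mk g := hk
    rw [mk_eq_mk_iff, cx_T_zpow_mul, cy_T_zpow_mul] at h1
    exact ⟨(k : ZMod N), h1⟩
  · rintro ⟨t, ht⟩
    obtain ⟨k, rfl⟩ := ZMod.intCast_surjective t
    refine ⟨⟨T ^ k, Subgroup.zpow_mem_zpowers T k⟩, ?_⟩
    show (QuotientGroup.mk (T ^ k * h) : Q N) = QuotientGroup.mk g
    rw [mk_eq_mk_iff, cx_T_zpow_mul, cy_T_zpow_mul]
    exact ht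

theorem isUnit_castHom_of_isCoprime {m d : ℕ} (hmN : m ∣ N) (hmd : m ∣ d) {x : ZMod N}
    (h : IsCoprime x (d : ZMod N)) : IsUnit (ZMod.castHom hmN (ZMod m) x) := by
  obtain ⟨a, b, hab⟩ := h
  have h2 := congrArg (ZMod.castHom hmN (ZMod m)) hab
  rw [map_add, map_mul, map_mul, map_natCast, map_one, (ZMod.natCast_eq_zero_iff d m).mpr hmd,
    mul_zero, add_zero] at h2
  exact IsUnit.of_mul_eq_one _ (by rw [mul_comm]; exact h2)

/-- the level of the second invariant -/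
def lev (N d : ℕ) : ℕ := Nat.gcd d (N / d)

theorem lev_dvd_left (N d : ℕ) : lev N d ∣ d := Nat.gcd_dvd_left _ _

theorem lev_dvd {d : ℕ} (hd : d ∣ N) : lev N d ∣ N := (lev_dvd_left N d).trans hd

theorem exists_rep [NeZero N] {d : ℕ} (hd : d ∣ N) (z : (ZMod (lev N d))ˣ) :
    ∃ g : SL(2, ℤ), cy N g = (d : ZMod N) ∧ ZMod.castHom (lev_dvd hd) (ZMod (lev N d)) (cx N g) = z := by
  have hd0 : d ≠ 0 := fun h => NeZero.ne N (Nat.eq_zero_of_zero_dvd (h ▸ hd))
  have : NeZero d := ⟨hd0⟩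
  obtain ⟨w, hw⟩ := ZMod.unitsMap_surjective (lev_dvd_left N d) z
  have hcop : IsCoprime ((w : ZMod d).val : ℤ) (d : ℤ) :=
    Nat.isCoprime_iff_coprime.mpr (ZMod.val_coe_unit_coprime w)
  obtain ⟨r, s, hrs⟩ := hcop
  refine ⟨⟨!![((w : ZMod d).val : ℤ), -s; (d : ℤ), r], ?_⟩, ?_, ?_⟩
  · rw [Matrix.det_fin_two_of]; linear_combination hrs
  · unfold cy
    simp
  · unfold cx
    simp only [Matrix.of_apply, Matrix.cons_val_zero, Matrix.cons_val']
    rw [← hw, ZMod.unitsMap_val]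
    push_cast
    rw [map_natCast, ZMod.natCast_val]

theorem dvd_of_cross {d d' : ℕ} (hd : d ∣ N) {x x' t : ZMod N} (h : IsCoprime x (d : ZMod N))
    (hc : (x + t * d) * d' = d * x') : d ∣ d' := by
  have h2 := congrArg (ZMod.castHom hd (ZMod d)) hc
  rw [map_mul, map_mul, map_add, map_mul, map_natCast, map_natCast, ZMod.natCast_self, mul_zero,
    add_zero, zero_mul] at h2
  have h3 := (isUnit_castHom_of_isCoprime hd dvd_rfl h).mul_right_eq_zero.mp h2
  exact (ZMod.natCast_eq_zero_iff d' d).mp h3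

theorem castHom_eq_of_cross [NeZero N] {d : ℕ} (hd : d ∣ N) {x x' t : ZMod N}
    (hc : (x + t * d) * d = d * x') :
    ZMod.castHom (lev_dvd hd) (ZMod (lev N d)) x = ZMod.castHom (lev_dvd hd) (ZMod (lev N d)) x' := by
  have hd0 : 0 < d := Nat.pos_of_ne_zero fun h => NeZero.ne N (Nat.eq_zero_of_zero_dvd (h ▸ hd))
  set w : ZMod N := x + t * d - x' with hw
  have h1 : (d : ZMod N) * w = 0 := by rw [hw]; linear_combination hc
  have h2 : ((d * w.val : ℕ) : ZMod N) = 0 := by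
    rw [Nat.cast_mul, ZMod.natCast_zmod_val, h1]
  rw [ZMod.natCast_eq_zero_iff] at h2
  have h3 : N / d ∣ w.val := (Nat.div_dvd_iff_dvd_mul hd hd0).mpr h2
  have h4 : lev N d ∣ w.val := (Nat.gcd_dvd_right _ _).trans h3
  have h5 : ZMod.castHom (lev_dvd hd) (ZMod (lev N d)) w = 0 := by
    conv_lhs => rw [← ZMod.natCast_zmod_val w]
    rw [map_natCast, ZMod.natCast_eq_zero_iff]
    exact h4
  rw [hw, map_sub, map_add, map_mul, map_natCast,
    (ZMod.natCast_eq_zero_iff d (lev N d)).mpr (lev_dvd_left N d), mul_zero, add_zero] at h5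
  exact sub_eq_zero.mp h5

theorem exists_cross_of_castHom_eq [NeZero N] {d : ℕ} (hd : d ∣ N) {x x' : ZMod N}
    (h : ZMod.castHom (lev_dvd hd) (ZMod (lev N d)) x =
      ZMod.castHom (lev_dvd hd) (ZMod (lev N d)) x') :
    ∃ t : ZMod N, (d : ZMod N) * (x + t * d - x') = 0 := by
  -- `x' - x = lev * m`
  have h1 : ZMod.castHom (lev_dvd hd) (ZMod (lev N d)) (x' - x) = 0 := by
    rw [map_sub, h, sub_self]
  have h2 : lev N d ∣ (x' - x).val := by
    rw [← ZMod.natCast_zmod_val (x' - x), map_natCast, ZMod.natCast_eq_zero_iff] at h1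
    exact h1
  obtain ⟨m, hm⟩ := h2
  have hbez : ((lev N d : ℕ) : ℤ) = d * Nat.gcdA d (N / d) + (N / d : ℕ) * Nat.gcdB d (N / d) :=
    Nat.gcd_eq_gcd_ab d (N / d)
  have hx : x' - x = (lev N d : ZMod N) * m := by
    rw [← ZMod.natCast_zmod_val (x' - x), hm]; push_cast; ring
  have hN : (d : ZMod N) * ((N / d : ℕ) : ZMod N) = 0 := by
    rw [← Nat.cast_mul, Nat.mul_div_cancel' hd, ZMod.natCast_self]
  generalize Nat.gcdA d (N / d) = A at hbez
  generalize Nat.gcdB d (N / d) = B at hbez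
  generalize N / d = c at hbez hN
  have hbez' := congrArg (Int.cast : ℤ → ZMod N) hbez
  push_cast at hbez'
  refine ⟨(A : ZMod N) * m, ?_⟩
  have : x + (A : ZMod N) * m * d - x' = - ((c : ZMod N) * (B : ZMod N) * m) := by
    linear_combination (-1 : ZMod N) * hx - (m : ZMod N) * hbez'
  rw [this]
  linear_combination (-(B : ZMod N) * m) * hN

theorem card_orbits_T [NeZero N] : Nat.card (Cusp N) = ModularCurve.cuspCount N := by
  classical
  have hex : ∀ w : (Σ d : {d // d ∈ N.divisors}, (ZMod (lev N d.1))ˣ),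
      ∃ g : SL(2, ℤ), cy N g = (w.1.1 : ZMod N) ∧
        ZMod.castHom (lev_dvd (Nat.dvd_of_mem_divisors w.1.2)) (ZMod (lev N w.1.1)) (cx N g) = w.2 :=
    fun w => exists_rep (Nat.dvd_of_mem_divisors w.1.2) w.2
  choose G hGy hGx using hex
  have hbij : Function.Bijective
      (fun w : (Σ d : {d // d ∈ N.divisors}, (ZMod (lev N d.1))ˣ) => toCusp N (G w)) := by
    constructor
    · rintro ⟨⟨d, hd⟩, z⟩ ⟨⟨d', hd'⟩, z'⟩ h
      obtain ⟨t, ht⟩ := (toCusp_eq_iff _ _).mp h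
      obtain ⟨t', ht'⟩ := (toCusp_eq_iff _ _).mp h.symm
      have c1 := isCoprime_col (N := N) (G ⟨⟨d, hd⟩, z⟩)
      have c2 := isCoprime_col (N := N) (G ⟨⟨d', hd'⟩, z'⟩)
      rw [hGy] at c1 c2 ht ht'
      rw [hGy] at ht ht'
      have e1 : d' ∣ d := dvd_of_cross (Nat.dvd_of_mem_divisors hd') c2 ht
      have e2 : d ∣ d' := dvd_of_cross (Nat.dvd_of_mem_divisors hd) c1 ht'
      obtain rfl : d = d' := Nat.dvd_antisymm e2 e1
      have e3 := castHom_eq_of_cross (Nat.dvd_of_mem_divisors hd) ht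
      have a1 := hGx ⟨⟨d, hd⟩, z⟩
      have a2 := hGx ⟨⟨d, hd'⟩, z'⟩
      have : z = z' := Units.ext (a1.symm.trans (e3.symm.trans a2))
      rw [this]
    · intro c
      obtain ⟨g, rfl⟩ := toCusp_surjective c
      obtain ⟨d, hdN, u, hu, hy⟩ := ZMod.eq_unit_mul_divisor (cy N g)
      obtain ⟨u, rfl⟩ := hu
      have hdmem : d ∈ N.divisors := Nat.mem_divisors.mpr ⟨hdN, NeZero.ne N⟩
      have hcop : IsCoprime (↑u⁻¹ * cx N g) (d : ZMod N) := by
        obtain ⟨a, b, hab⟩ := isCoprime_col (N := N) g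
        refine ⟨a * u, b * u, ?_⟩
        rw [hy] at hab
        have := u.mul_inv
        linear_combination hab + (a * cx N g) * this
      have hz := isUnit_castHom_of_isCoprime (lev_dvd hdN) (lev_dvd_left N d) hcop
      refine ⟨⟨⟨d, hdmem⟩, hz.unit⟩, ?_⟩
      show toCusp N (G ⟨⟨d, hdmem⟩, hz.unit⟩) = toCusp N g
      rw [toCusp_eq_iff]
      have hx := hGx ⟨⟨d, hdmem⟩, hz.unit⟩
      rw [IsUnit.unit_spec] at hx
      obtain ⟨t, ht⟩ := exists_cross_of_castHom_eq hdN hx.symm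
      refine ⟨t, ?_⟩
      rw [hGy, hy]
      have e := u.mul_inv
      show (cx N g + t * (↑u * ↑d)) * (d : ZMod N) = ↑u * ↑d * cx N (G ⟨⟨d, hdmem⟩, hz.unit⟩)
      linear_combination (u : ZMod N) * ht - (d * cx N g : ZMod N) * e
  rw [← Nat.card_congr (Equiv.ofBijective _ hbij), Nat.card_sigma, ModularCurve.cuspCount]
  rw [← Finset.sum_coe_sort N.divisors (fun d => Nat.totient (Nat.gcd d (N / d)))]
  refine Finset.sum_congr rfl fun d _ => ?_
  have hd := Nat.dvd_of_mem_divisors d.2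
  have : NeZero (lev N d.1) := ⟨fun h => NeZero.ne N (Nat.eq_zero_of_zero_dvd (h ▸ lev_dvd hd))⟩
  rw [Nat.card_eq_fintype_card, ZMod.card_units_eq_totient]
  rfl

end Fermat.Agent.Lib.Gamma0Cosets
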