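import Fermat.Agent.Lib.Gamma0Cosets.Basic
import Fermat.Prelude.Def_ModularCurve_GenusNumerics

/-!
# Fixed points of `S` and `S * T` on `SL(2,ℤ) ⧸ Γ₀(N)`
-/

set_option autoImplicit false

namespace Fermat.Agent.Lib.Gamma0Cosets

open Matrix MatrixGroups ModularGroup CongruenceSubgroup

variable {N : ℕ}

theorem smul_mk (g h : SL(2, ℤ)) :
    g • (QuotientGroup.mk h : Q N) = QuotientGroup.mk (g * h) := rfl

theorem isUnit_cy_of_quadratic {c : ZMod N} {g : SL(2, ℤ)}
    (h : cx N g ^ 2 + c * cx N g * cy N g + cy N g ^ 2 = 0) : IsUnit (cy N g) := by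
  obtain ⟨a, b, hab⟩ := isCoprime_col (N := N) g
  refine IsUnit.of_mul_eq_one
    (-a ^ 2 * c * cx N g - a ^ 2 * cy N g + 2 * a * b * cx N g + b ^ 2 * cy N g) ?_
  linear_combination (-a ^ 2) * h + (a * cx N g + b * cy N g + 1) * hab

theorem card_fixedBy_of_quadratic [NeZero N] (A : SL(2, ℤ)) (c : ZMod N)
    (hA : ∀ g : SL(2, ℤ), (QuotientGroup.mk (A * g) : Q N) = QuotientGroup.mk g ↔
      cx N g ^ 2 + c * cx N g * cy N g + cy N g ^ 2 = 0) :
    Nat.card (MulAction.fixedBy (Q N) A) = Nat.card {x : ZMod N // x ^ 2 + c * x + 1 = 0} := by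
  classical
  have hex : ∀ x : ZMod N, ∃ g : SL(2, ℤ), cx N g = x * cy N g := by
    intro x
    obtain ⟨g, hg⟩ := exists_col (N := N) (x := x) (y := 1) isCoprime_one_right
    exact ⟨g, by rw [hg, one_mul]⟩
  choose G hG using hex
  have hunit : ∀ x : ZMod N, IsUnit (cy N (G x)) := by
    intro x
    obtain ⟨a, b, hab⟩ := isCoprime_col (N := N) (G x)
    rw [hG x] at hab
    exact IsUnit.of_mul_eq_one (a * x + b) (by linear_combination hab)
  symm
  refine Nat.card_congr (Equiv.ofBijective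
    (fun x : {x : ZMod N // x ^ 2 + c * x + 1 = 0} =>
      (⟨QuotientGroup.mk (G x.1), ?_⟩ : MulAction.fixedBy (Q N) A)) ⟨?_, ?_⟩)
  · rw [MulAction.mem_fixedBy, smul_mk, hA, hG x.1]
    linear_combination (cy N (G x.1)) ^ 2 * x.2
  · intro x x' hxx
    have h1 := (mk_eq_mk_iff (N := N) _ _).mp (congrArg Subtype.val hxx)
    rw [hG x.1, hG x'.1] at h1
    apply Subtype.ext
    have h2 : (cy N (G x.1) * cy N (G x'.1)) * (x.1 - x'.1) = 0 := by linear_combination h1
    have h3 := ((hunit x.1).mul (hunit x'.1)).mul_right_eq_zero.mp h2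
    exact sub_eq_zero.mp h3
  · rintro ⟨q, hq⟩
    induction q using QuotientGroup.induction_on with
    | H g =>
      rw [MulAction.mem_fixedBy, smul_mk, hA] at hq
      obtain ⟨u, hu⟩ := isUnit_cy_of_quadratic hq
      have hx : cx N g = (cx N g * ↑u⁻¹) * cy N g := by
        rw [← hu]
        have := u.inv_mul
        linear_combination (- cx N g) * this
      refine ⟨⟨cx N g * ↑u⁻¹, ?_⟩, ?_⟩
      · have h1 : (cy N g) ^ 2 * ((cx N g * ↑u⁻¹) ^ 2 + c * (cx N g * ↑u⁻¹) + 1) = 0 := by
          have e : cy N g * ↑u⁻¹ = 1 := by rw [← hu]; exact u.mul_inv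
          linear_combination hq + (cx N g ^ 2 * (cy N g * ↑u⁻¹ + 1) + c * cx N g * cy N g) * e
        have h2 : IsUnit ((cy N g) ^ 2) := (hu ▸ u.isUnit).pow 2
        exact h2.mul_right_eq_zero.mp h1
      · apply Subtype.ext
        show (QuotientGroup.mk (G (cx N g * ↑u⁻¹)) : Q N) = QuotientGroup.mk g
        rw [mk_eq_mk_iff, hG]
        linear_combination (- cy N (G (cx N g * ↑u⁻¹))) * hx

theorem card_fixedBy_S [NeZero N] :
    Nat.card (MulAction.fixedBy (Q N) S) = ModularCurve.nuTwo N := by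
  rw [card_fixedBy_of_quadratic (N := N) S 0, ModularCurve.nuTwo]
  · refine Nat.card_congr (Equiv.subtypeEquivRight fun x => ?_)
    rw [zero_mul, add_zero]
  · intro g
    rw [mk_eq_mk_iff, cx_S_mul, cy_S_mul]
    constructor
    · intro h; linear_combination -h
    · intro h; linear_combination -h

theorem card_fixedBy_ST [NeZero N] :
    Nat.card (MulAction.fixedBy (Q N) (S * T)) = ModularCurve.nuThree N := by
  rw [card_fixedBy_of_quadratic (N := N) (S * T) 1, ModularCurve.nuThree]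
  · refine Nat.card_congr (Equiv.subtypeEquivRight fun x => ?_)
    rw [one_mul]
  · intro g
    rw [mk_eq_mk_iff, mul_assoc, cx_S_mul, cy_S_mul, cx_T_mul, cy_T_mul]
    constructor
    · intro h; linear_combination -h
    · intro h; linear_combination -h

end Fermat.Agent.Lib.Gamma0Cosets
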