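import Mathlib

/-!
# Cosets of `Gamma0 N` in `SL(2, ℤ)` and unimodular vectors modulo `N`

Shared combinatorics library (used by S20 / S21 / S24).
`Q N = SL(2,ℤ) ⧸ Gamma0 N` with the left multiplication action.  A coset `g Γ₀(N)` is determined
by the first column of `g` modulo `N`, up to units.
-/

set_option autoImplicit false

namespace Fermat.Agent.Lib.Gamma0Cosets

open Matrix MatrixGroups ModularGroup CongruenceSubgroup

section Ring

variable {R : Type*} [CommRing R]

theorem exists_unit_of_cross {x y x' y' : R} (h : IsCoprime x y) (h' : IsCoprime x' y')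
    (hc : x * y' = y * x') : ∃ u : Rˣ, x' = u * x ∧ y' = u * y := by
  obtain ⟨a, b, hab⟩ := h
  obtain ⟨a', b', hab'⟩ := h'
  refine ⟨⟨a * x' + b * y', a' * x + b' * y, ?_, ?_⟩, ?_, ?_⟩
  · linear_combination (b * a' - a * b') * hc + (a' * x' + b' * y') * hab + hab'
  · linear_combination (b * a' - a * b') * hc + (a' * x' + b' * y') * hab + hab'
  · show x' = (a * x' + b * y') * x
    linear_combination (-x') * hab - b * hc
  · show y' = (a * x' + b * y') * y
    linear_combination (-y') * hab + a * hc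

theorem cross_of_unit {x y x' y' : R} {u : R} (hx : x' = u * x) (hy : y' = u * y) :
    x * y' = y * x' := by
  rw [hx, hy]; ring

end Ring

/-- The coset space `SL(2,ℤ) ⧸ Γ₀(N)`. -/
abbrev Q (N : ℕ) : Type := SL(2, ℤ) ⧸ Gamma0 N

/-- first column, upper entry, mod `N` -/
def cx (N : ℕ) (g : SL(2, ℤ)) : ZMod N := ((g 0 0 : ℤ) : ZMod N)

/-- first column, lower entry, mod `N` -/
def cy (N : ℕ) (g : SL(2, ℤ)) : ZMod N := ((g 1 0 : ℤ) : ZMod N)

variable {N : ℕ}

theorem isCoprime_col (g : SL(2, ℤ)) : IsCoprime (cx N g) (cy N g) := by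
  refine ⟨((g 1 1 : ℤ) : ZMod N), -((g 0 1 : ℤ) : ZMod N), ?_⟩
  have h := g.det_coe
  rw [Matrix.det_fin_two] at h
  have h2 := congrArg (Int.cast : ℤ → ZMod N) h
  push_cast at h2
  unfold cx cy
  linear_combination h2

theorem mk_eq_mk_iff (g h : SL(2, ℤ)) :
    (QuotientGroup.mk g : Q N) = QuotientGroup.mk h ↔ cx N g * cy N h = cy N g * cx N h := by
  rw [QuotientGroup.eq, Gamma0_mem]
  have : ((g⁻¹ * h) 1 0 : ℤ) = g 0 0 * h 1 0 - g 1 0 * h 0 0 := by
    rw [Matrix.SpecialLinearGroup.coe_mul, Matrix.SpecialLinearGroup.SL2_inv_expl,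
      Matrix.mul_apply, Fin.sum_univ_two]
    simp
    ring
  rw [this]
  unfold cx cy
  push_cast
  rw [sub_eq_zero]

theorem cx_mul (g h : SL(2, ℤ)) :
    cx N (g * h) = ((g 0 0 : ℤ) : ZMod N) * cx N h + ((g 0 1 : ℤ) : ZMod N) * cy N h := by
  unfold cx cy
  rw [Matrix.SpecialLinearGroup.coe_mul, Matrix.mul_apply, Fin.sum_univ_two]
  push_cast
  ring

theorem cy_mul (g h : SL(2, ℤ)) :
    cy N (g * h) = ((g 1 0 : ℤ) : ZMod N) * cx N h + ((g 1 1 : ℤ) : ZMod N) * cy N h := by
  unfold cx cy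
  rw [Matrix.SpecialLinearGroup.coe_mul, Matrix.mul_apply, Fin.sum_univ_two]
  push_cast
  ring

@[simp] theorem cx_S_mul (h : SL(2, ℤ)) : cx N (S * h) = - cy N h := by
  rw [cx_mul]; simp [S]

@[simp] theorem cy_S_mul (h : SL(2, ℤ)) : cy N (S * h) = cx N h := by
  rw [cy_mul]; simp [S]

@[simp] theorem cx_T_mul (h : SL(2, ℤ)) : cx N (T * h) = cx N h + cy N h := by
  rw [cx_mul]; simp [T]

@[simp] theorem cy_T_mul (h : SL(2, ℤ)) : cy N (T * h) = cy N h := by
  rw [cy_mul]; simp [T]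

theorem cx_T_zpow_mul (k : ℤ) (h : SL(2, ℤ)) :
    cx N (T ^ k * h) = cx N h + (k : ZMod N) * cy N h := by
  rw [cx_mul, ModularGroup.coe_T_zpow]; simp

theorem cy_T_zpow_mul (k : ℤ) (h : SL(2, ℤ)) : cy N (T ^ k * h) = cy N h := by
  rw [cy_mul, ModularGroup.coe_T_zpow]; simp

/-- every unimodular vector mod `N` is, up to a unit, the first column of some `g`. -/
theorem exists_col [NeZero N] {x y : ZMod N} (h : IsCoprime x y) :
    ∃ g : SL(2, ℤ), x * cy N g = y * cx N g := by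
  obtain ⟨d, hdN, u, hu, hy⟩ := ZMod.eq_unit_mul_divisor y
  obtain ⟨u, rfl⟩ := hu
  -- the vector `(u⁻¹ x, d)`
  set x' : ZMod N := ↑u⁻¹ * x with hx'
  have hcop : IsCoprime (x'.val : ℤ) (d : ℤ) := by
    obtain ⟨a, b, hab⟩ := h
    -- modulo d
    have h1 : (a * u) * x' + b * u * d = 1 := by
      rw [hx', ← hab, hy]
      have := u.mul_inv
      linear_combination (a * x) * this
    have h2 := congrArg (ZMod.castHom hdN (ZMod d)) h1
    simp only [map_add, map_mul, map_natCast, map_one, ZMod.natCast_self, mul_zero, add_zero] at h2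
    have h3 : IsUnit (ZMod.castHom hdN (ZMod d) x') := IsUnit.of_mul_eq_one _ (by rw [mul_comm]; exact h2)
    have h4 : ZMod.castHom hdN (ZMod d) x' = ((x'.val : ℕ) : ZMod d) := by
      conv_lhs => rw [← ZMod.natCast_zmod_val x']
      rw [map_natCast]
    rw [h4, ZMod.isUnit_iff_coprime] at h3
    exact Nat.isCoprime_iff_coprime.mpr h3
  obtain ⟨r, s, hrs⟩ := hcop
  refine ⟨⟨!![(x'.val : ℤ), -s; (d : ℤ), r], ?_⟩, ?_⟩
  · rw [Matrix.det_fin_two_of]; linear_combination hrs
  · unfold cx cy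
    simp only [Matrix.SpecialLinearGroup.coe_mk, Matrix.of_apply, Matrix.cons_val_zero,
      Matrix.cons_val_one, Matrix.cons_val', Matrix.cons_val_fin_one]
    push_cast
    rw [ZMod.natCast_zmod_val, hy, hx']
    have := u.mul_inv
    linear_combination (- x * d) * this

end Fermat.Agent.Lib.Gamma0Cosets
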